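/-
Programme MAZ (S15), local package at `r` odd (helper58), brick L-r-F3:
**a flat extension of a constant module by a constant module killed by `r` is unramified at `r`.**

* `inertia_fixed_of_flat` (local, generic): `X` a flat local module killed by `p` (`p` odd), `τ` inertial,
  `x ∈ X` such that `τ x - x` is fixed by inertia; then `τ x = x`.  (`τ x - x` lies in `Red⁰` because `τ`
  is trivial on the residue field, and an inertia-invariant point of `Red⁰` is trivial: statement (F1) of
  `TW/B5/Iface`, proved in `TW/CE46`.)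
* `inertia_trivial_of_flat_of_filtration` : inertia acts trivially on a flat local module killed by `p`
  which has a two-step filtration with trivial inertia action on the graded pieces.
* `flat_cochain_unramified` (global form, vocabulary of `MAZ/FlatCond42`): `V` killed by `r` with trivial
  action of the inertia at `r`, `c : G_ℚ → V` a cochain whose extension module `V × ℤ/N` (`r ∣ N`) has a
  finite flat model over `ℤ_(r)`; then `c (res τ) = 0` for every inertial `τ ∈ G_r`.
-/
import Fermat.Agent.MAZ.LocalR58.Transfer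
import Fermat.Agent.TW.B5.CT3Ord37
import Fermat.Agent.TW.CE46.Toolkit

set_option autoImplicit false

namespace Fermat.Agent.MAZ.LocalR58

open Fermat.Agent.Flat44 Fermat.Agent.TW.B5.Iface Fermat.Agent.MAZ.FlatCond42
open Fermat.Agent.TW.B5.CT3Ord37

section Local

variable {p : ℕ} [Fact p.Prime]

/-- **(F3), local generic form.**  In a flat local module killed by `p` (`p` odd), if `τ` is inertial and
`τ x - x` is fixed by the whole inertia group, then `τ x = x`. -/
theorem inertia_fixed_of_flat (hp2 : p ≠ 2) {X : Type} [AddCommGroup X] {act : Gp p → X → X}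
    (hfl : IsFlatLocalModule p X act) (hpX : ∀ x : X, p • x = 0)
    {τ : Gp p} (hτ : IsInertial p τ) (x : X)
    (hfix : ∀ τ' : Gp p, IsInertial p τ' → act τ' (act τ x - x) = act τ x - x) :
    act τ x = x := by
  obtain ⟨H, _, _, hfin, hflat, hcocomm, e, he_mul, he_act⟩ := hfl
  have he_one : e 1 = 0 := by
    have h1 := he_mul 1 1
    rw [one_mul] at h1
    exact left_eq_add.mp h1
  have he_gal : ∀ (σ : Gp p) (f : Pts (p := p) H), e (galPt H σ f) = act σ (e f) :=
    fun σ f => he_act σ f _ (isGalConj_galPt H σ f)
  have he_pow : ∀ (f : Pts (p := p) H) (n : ℕ), e (f ^ n) = n • e f := by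
    intro f n
    induction n with
    | zero => rw [pow_zero, he_one, zero_smul]
    | succ n ih => rw [pow_succ, he_mul, ih, succ_nsmul]
  have hpow_p : ∀ f : Pts (p := p) H, f ^ p = 1 := by
    intro f
    apply e.injective
    rw [he_pow, he_one]
    exact hpX _
  have h1 : e.symm (-x) * e.symm x = 1 := by
    apply e.injective
    rw [he_mul, he_one, Equiv.apply_symm_apply, Equiv.apply_symm_apply, neg_add_cancel]
  have h2 : e.symm x * e.symm (act τ x - x) = galPt H τ (e.symm x) := by
    apply e.injective
    rw [he_mul, he_gal, Equiv.apply_symm_apply, Equiv.apply_symm_apply, add_sub_cancel]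
  have h3 : e.symm (act τ x - x) = e.symm (-x) * galPt H τ (e.symm x) := by
    rw [← h2, ← mul_assoc, h1, one_mul]
  have hred : e.symm (act τ x - x) ∈ red0 (p := p) H := by
    rw [mem_red0_iff, h3]
    intro h
    have h4 := mul_congr H (e.symm (-x)) (e.symm (-x)) (galPt H τ (e.symm x)) (e.symm x)
      (fun h => by rw [sub_self, norm_zero]; exact zero_lt_one) (galPt_congr H hτ (e.symm x)) h
    rwa [h1] at h4
  have hf : ∀ τ' : Gp p, IsInertial p τ' →
      IsGalConj H τ' (e.symm (act τ x - x)) (e.symm (act τ x - x)) := by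
    intro τ' hτ'
    have h5 : galPt H τ' (e.symm (act τ x - x)) = e.symm (act τ x - x) := by
      apply e.injective
      rw [he_gal, Equiv.apply_symm_apply, hfix τ' hτ']
    intro h
    have h6 := galPt_apply H τ' (e.symm (act τ x - x)) h
    rwa [h5] at h6
  have h7 := Fermat.Agent.TW.CE46.Toolkit.statementF1 p hp2 H hpow_p
    (e.symm (act τ x - x)) hred hf
  have h8 : act τ x - x = 0 := by
    rw [← e.apply_symm_apply (act τ x - x), h7, he_one]
  exact sub_eq_zero.mp h8

/-- Inertia acts trivially on a flat local module killed by `p` (`p` odd) having a subset `Y` (the bottom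
step of a filtration) fixed pointwise by inertia and containing all `τ x - x`, `τ` inertial. -/
theorem inertia_trivial_of_flat_of_filtration (hp2 : p ≠ 2) {X : Type} [AddCommGroup X]
    {act : Gp p → X → X} (hfl : IsFlatLocalModule p X act) (hpX : ∀ x : X, p • x = 0)
    (Y : Set X) (hY : ∀ τ : Gp p, IsInertial p τ → ∀ y ∈ Y, act τ y = y)
    (hXY : ∀ τ : Gp p, IsInertial p τ → ∀ x : X, act τ x - x ∈ Y)
    {τ : Gp p} (hτ : IsInertial p τ) (x : X) : act τ x = x :=
  inertia_fixed_of_flat hp2 hfl hpX hτ x fun τ' hτ' => hY τ' hτ' _ (hXY τ hτ x)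

end Local

section Global

variable {r : ℕ} [Fact r.Prime]

/-- `a.val • y = (a mod r).val • y` on `r`-torsion. -/
theorem val_castHom_nsmul {N : ℕ} [NeZero N] (hrN : r ∣ N) {V : Type} [AddCommGroup V] {y : V}
    (hy : r • y = 0) (a : ZMod N) :
    (ZMod.castHom hrN (ZMod r) a).val • y = a.val • y := by
  haveI : NeZero r := ⟨(Fact.out : r.Prime).ne_zero⟩
  have h1 : (ZMod.castHom hrN (ZMod r) a).val = a.val % r := by
    rw [ZMod.castHom_apply, ← ZMod.natCast_val, ZMod.val_natCast]
  rw [h1]
  conv_rhs => rw [← Nat.mod_add_div a.val r]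
  rw [add_nsmul, mul_nsmul, hy, smul_zero, add_zero]

/-- The reduction `V × ℤ/N → V × ℤ/r` of extension modules (`r ∣ N`, `V` killed by `r`). -/
theorem hasFlatModel_extAct_of_dvd {N : ℕ} [NeZero N] (hrN : r ∣ N) {V : Type} [AddCommGroup V]
    [DistribMulAction GQ V] (hVr : ∀ v : V, r • v = 0) {c : GQ → V} (hc : IsFlatCochain r N c) :
    IsFlatCochain r r c := by
  haveI : NeZero r := ⟨(Fact.out : r.Prime).ne_zero⟩
  let g : V × ZMod N →+ V × ZMod r :=
    { toFun := fun x => (x.1, ZMod.castHom hrN (ZMod r) x.2)
      map_zero' := by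
        apply Prod.ext
        · rfl
        · exact map_zero _
      map_add' := fun x y => by
        apply Prod.ext
        · rfl
        · exact map_add _ _ _ }
  refine hasFlatModel_of_surjective hc g (fun e => ⟨(e.1, (e.2.val : ZMod N)), ?_⟩) fun σ x => ?_
  · apply Prod.ext
    · rfl
    · show ZMod.castHom hrN (ZMod r) ((e.2.val : ℕ) : ZMod N) = e.2
      rw [map_natCast, ZMod.natCast_zmod_val]
  · apply Prod.ext
    · show σ • x.1 + x.2.val • c σ = σ • x.1 + (ZMod.castHom hrN (ZMod r) x.2).val • c σ
      rw [val_castHom_nsmul hrN (hVr (c σ))]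
    · rfl

/-- **(F3), global form.**  `V` is killed by `r` (`r` odd), the inertia at `r` acts trivially on `V`, and the
extension module `V × ℤ/N` (`r ∣ N`) of the cochain `c` has a finite flat model over `ℤ_(r)`.  Then `c`
vanishes on (the image in `G_ℚ` of) the inertia group at `r`. -/
theorem flat_cochain_unramified (hr2 : r ≠ 2) {N : ℕ} [NeZero N] (hrN : r ∣ N) {V : Type}
    [AddCommGroup V] [DistribMulAction GQ V] (hVr : ∀ v : V, r • v = 0)
    (htriv : ∀ τ : Gp r, IsInertial r τ → ∀ v : V, localGaloisToGlobal r τ • v = v)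
    {c : GQ → V} (hc : IsFlatCochain r N c) {τ : Gp r} (hτ : IsInertial r τ) :
    c (localGaloisToGlobal r τ) = 0 := by
  haveI : NeZero r := ⟨(Fact.out : r.Prime).ne_zero⟩
  have hX : IsFlatCochain r r c := hasFlatModel_extAct_of_dvd hrN hVr hc
  have hloc := isFlatLocalModule_of_isFlatCochain r hX
  have hkill : ∀ x : V × ZMod r, r • x = 0 := by
    intro x
    apply Prod.ext
    · exact hVr x.1
    · show r • x.2 = 0
      rw [nsmul_eq_mul, ZMod.natCast_self, zero_mul]
  have hone : (1 : ZMod r).val = 1 := by
    rw [ZMod.val_one_eq_one_mod, Nat.mod_eq_of_lt (Fact.out : r.Prime).one_lt]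
  have hstep : ∀ σ : Gp r, ∀ x : V × ZMod r,
      locAct r (extAct r c) σ x - x =
        (localGaloisToGlobal r σ • x.1 + x.2.val • c (localGaloisToGlobal r σ) - x.1, 0) := by
    intro σ x
    apply Prod.ext
    · rfl
    · show x.2 - x.2 = 0
      exact sub_self _
  have key := inertia_trivial_of_flat_of_filtration hr2 hloc hkill
    {y : V × ZMod r | y.2 = 0}
    (fun τ' hτ' y hy => by
      apply Prod.ext
      · show localGaloisToGlobal r τ' • y.1 + y.2.val • c (localGaloisToGlobal r τ') = y.1
        have hy2 : y.2 = 0 := hy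
        rw [hy2, ZMod.val_zero, zero_nsmul, add_zero, htriv τ' hτ']
      · rfl)
    (fun τ' _ x => by
      show (locAct r (extAct r c) τ' x - x).2 = 0
      rw [hstep])
    hτ ((0 : V), (1 : ZMod r))
  have h1 := congrArg Prod.fst key
  have h2 : localGaloisToGlobal r τ • (0 : V) + (1 : ZMod r).val • c (localGaloisToGlobal r τ) = 0 := h1
  rwa [smul_zero, zero_add, hone, one_nsmul] at h2

end Global

end Fermat.Agent.MAZ.LocalR58
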