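/-
Programme MAZ (S15), local package at `r` odd (helper58), brick L-r-F4:
**a flat Kummer class at `r` is the class of an element of valuation divisible by `r`.**

* `kummer_unit_of_flat` (local, generic; the argument of `TW/B5/FlatLev47.levAll_of_flat'` for ONE Kummer
  generator): `F` finite normal tame over `ℚ_p` with `ζ_p ∈ F`, `X` a finite flat local module killed by `p`
  whose kernel fixes `F` and a `p`-th root `α` of `a ∈ Fˣ`; then `a ∈ U^{(e)} · Fˣᵖ`.
  Inputs: `TW.PmStatement48.statementPm` (Fontaine's `(P_m)`) and `TW.Ram8.LevelGen.kummerLevelGen'`.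
* `not_dvd_e_cyclo` : the ramification index of `ℚ_p(ζ_p)` is prime to `p` (it is `< p`:
  `LDAll65.ramIdxEqCard`).
* `padic_val_of_flat_kummer` : for `a ∈ ℚ_pˣ`, if the kernel of a finite flat local module killed by `p`
  fixes `ζ_p` and a `p`-th root of `a`, then `p ∣ v_p(a)`.
* `flat_kummer_cochain_val` (global form, vocabulary of `MAZ/FlatCond42`): `V = ⟨v₀⟩` with `G_ℚ` acting
  through the cyclotomic character, `c` the Kummer cocycle of `x ∈ ℚˣ`; if the extension module of `c` has a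
  finite flat model over `ℤ_(r)` then `r ∣ v_r(x)`.
-/
import Fermat.Agent.MAZ.LocalR58.F3
import Fermat.Agent.TW.B5.FlatLev47
import Fermat.Agent.TW.B5.LDAll65
import Fermat.Agent.TW.PmStatement48
import Fermat.Agent.TW.Ram8.LevelGen
import Fermat.Agent.TW.B5.LG83U

set_option autoImplicit false
set_option linter.unusedSectionVars false
set_option linter.style.haveILetI false

namespace Fermat.Agent.MAZ.LocalR58

open Fermat.Agent.Flat44 Fermat.Agent.MAZ.FlatCond42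
open Fermat.Agent.TW.B5.Iface Fermat.Agent.TW.B5.IfaceLG Fermat.Agent.TW.B5.IfaceCT
  Fermat.Agent.TW.B5.Kummer47 Fermat.Agent.TW.B5.Levels47 Fermat.Agent.TW.B5.CT3Ord37
  Fermat.Agent.TW.B5.FlatLev47

section Local

variable {p : ℕ} [hp : Fact p.Prime]

/-- **(F4), local generic form.**  One Kummer generator of a flat local module has level `≥ e`. -/
theorem kummer_unit_of_flat (hp2 : p ≠ 2)
    {F K₀ : IntermediateField ℚ_[p] (Kbar p)} [FiniteDimensional ℚ_[p] F]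
    (D : LevelData F) (hFn : IsNormalField p F)
    (hK₀F : K₀ ≤ F) (hK₀fin : FiniteDimensional ℚ_[p] K₀) (hK₀ur : IsUnramifiedField p K₀)
    (hres : ∀ x ∈ F, ‖x‖ ≤ 1 → ∃ y ∈ K₀, ‖x - y‖ < 1)
    (hpe : ¬ p ∣ D.e) {ζ : Kbar p} (hζ : IsPrimRoot ζ) (hζF : ζ ∈ F)
    {X : Type} [AddCommGroup X] [Finite X] {act : Gp p → X → X}
    (hflat : IsFlatLocalModule p X act) (hpX : ∀ x : X, p • x = 0)
    {a α : Kbar p} (haF : a ∈ F) (ha0 : a ≠ 0) (hα : α ^ p = a)
    (hcut : ∀ τ : Gp p, (∀ x : X, act τ x = x) → τ ∈ F.fixingSubgroup ∧ τ α = α) :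
    ∃ b ∈ F, b ≠ 0 ∧ a * b ^ p ∈ D.U D.e := by
  obtain ⟨H, _, _, hfin, hflatH, hcocomm, e, he_mul, he_act⟩ := hflat
  haveI := hfin
  haveI := hflatH
  haveI := hcocomm
  have he_one : e 1 = 0 := by
    have h1 := he_mul 1 1
    rw [one_mul] at h1
    exact left_eq_add.mp h1
  have he_pow : ∀ (f : Pts (p := p) H) (n : ℕ), e (f ^ n) = n • e f := by
    intro f n
    induction n with
    | zero => rw [pow_zero, he_one, zero_smul]
    | succ n ih => rw [pow_succ, he_mul, ih, succ_nsmul]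
  have hpow_p : ∀ f : Pts (p := p) H, f ^ p = 1 := by
    intro f
    apply e.injective
    rw [he_pow, he_one, hpX]
  haveI : Finite (Pts (p := p) H) := Finite.of_equiv X e.symm
  set L : IntermediateField ℚ_[p] (Kbar p) :=
    K₀ ⊔ IntermediateField.adjoin ℚ_[p] (ptSet (p := p) H) with hL
  have hPmL : ∀ K₁ : IntermediateField ℚ_[p] (Kbar p), K₀ ≤ K₁ → K₁ ≤ L →
      FiniteDimensional ℚ_[p] K₁ → IsUnramifiedField p K₁ → FontainePm p K₁ L := by
    intro K₁ h01 h1L h1fin h1ur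
    refine Fermat.Agent.TW.PmStatement48.statementPm p hp2 H hpow_p K₁ L h1fin h1ur ?_
    refine le_antisymm ?_ (sup_le h1L le_sup_right)
    rw [hL]
    exact sup_le_sup_right h01 _
  haveI := hK₀fin
  haveI := finiteDimensional_adjoin_ptSet (p := p) H
  have hLfin : FiniteDimensional ℚ_[p] L := IntermediateField.finiteDimensional_sup _ _
  have hLnorm : IsNormalOver p K₀ L := isNormalOver_sup_adjoin_ptSet H K₀
  have hGL : ∀ τ : Gp p, τ ∈ L.fixingSubgroup → τ ∈ F.fixingSubgroup ∧ τ α = α := by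
    intro τ hτ
    have hτL : ∀ y ∈ L, τ y = y := (IntermediateField.mem_fixingSubgroup_iff L τ).1 hτ
    refine hcut τ ?_
    intro x
    obtain ⟨f, rfl⟩ := e.surjective x
    have h1 : galPt H τ f = f := by
      apply WithConv.ofConv_injective
      apply AlgHom.ext
      intro h
      show τ (f h) = f h
      exact hτL _ ((le_sup_right : IntermediateField.adjoin ℚ_[p] (ptSet (p := p) H) ≤ L)
        (IntermediateField.subset_adjoin _ _ ⟨f, h, rfl⟩))
    have h2 := he_act τ f (galPt H τ f) (isGalConj_galPt H τ f)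
    rw [h1] at h2
    exact h2.symm
  have hFL : F ≤ L := by
    intro x hx
    exact mem_of_fixed x fun τ hτ => fixes_of_mem hx (hGL τ hτ).1
  have hαL : α ∈ L := mem_of_fixed α fun τ hτ => (hGL τ hτ).2
  exact Fermat.Agent.TW.Ram8.LevelGen.kummerLevelGen' p hp2 K₀ F L D ζ hK₀fin hK₀ur hK₀F hFL hLfin
    hLnorm (fun τ _ y hy => hFn τ y hy) hres hpe hζ hζF hPmL a haF ha0 ⟨α, hαL, hα⟩

/-! ### The cyclotomic field `ℚ_p(ζ_p)` -/

section Cyclo

variable {ζ : Kbar p} (hζ : IsPrimRoot ζ)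

/-- `ℚ_p(ζ)`. -/
noncomputable def cycloF (ζ : Kbar p) : IntermediateField ℚ_[p] (Kbar p) :=
  IntermediateField.adjoin ℚ_[p] {ζ}

theorem mem_cycloF (ζ : Kbar p) : ζ ∈ cycloF ζ := IntermediateField.mem_adjoin_simple_self _ _

instance finiteDimensional_cycloF (ζ : Kbar p) : FiniteDimensional ℚ_[p] (cycloF ζ) :=
  IntermediateField.adjoin.finiteDimensional (Algebra.IsIntegral.isIntegral ζ)

/-- An automorphism fixing `ζ` fixes `ℚ_p(ζ)`. -/
theorem mem_fixingSubgroup_cycloF {ζ : Kbar p} {τ : Gp p} (h : τ ζ = ζ) :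
    τ ∈ (cycloF ζ).fixingSubgroup := by
  rw [IntermediateField.mem_fixingSubgroup_iff]
  have hfix : τ ∈ MulAction.stabilizer (Gp p) ζ := MulAction.mem_stabilizer_iff.2 h
  have hle : IntermediateField.adjoin ℚ_[p] {ζ} ≤
      IntermediateField.fixedField (Subgroup.zpowers τ) := by
    refine IntermediateField.adjoin_le_iff.2 ?_
    intro x hx
    rw [Set.mem_singleton_iff] at hx
    rw [hx]
    intro σ
    obtain ⟨σ, hσ⟩ := σ
    obtain ⟨n, rfl⟩ := Subgroup.mem_zpowers_iff.1 hσ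
    have h1 : τ ^ n ∈ MulAction.stabilizer (Gp p) ζ := Subgroup.zpow_mem _ hfix n
    exact MulAction.mem_stabilizer_iff.1 h1
  intro x hx
  exact hle hx ⟨τ, Subgroup.mem_zpowers τ⟩

include hζ in
theorem isNormalField_cycloF : IsNormalField p (cycloF ζ) := by
  intro τ
  have h1 : IntermediateField.adjoin ℚ_[p] {ζ} ≤
      (cycloF ζ).comap (τ : Kbar p →ₐ[ℚ_[p]] Kbar p) := by
    refine IntermediateField.adjoin_le_iff.2 ?_
    intro y hy
    rw [Set.mem_singleton_iff] at hy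
    rw [hy]
    show τ ζ ∈ cycloF ζ
    have h : (τ ζ) ^ p = 1 := by rw [← map_pow, hζ.1, map_one]
    obtain ⟨i, hi⟩ := exists_pow_eq hζ h
    rw [← hi]
    exact pow_mem (mem_cycloF ζ) i
  intro x hx
  exact h1 hx

include hζ in
/-- The ramification index of `ℚ_p(ζ_p)` is prime to `p`. -/
theorem not_dvd_e_cyclo (D : LevelData (cycloF ζ)) : ¬ p ∣ D.e := by
  classical
  obtain ⟨s, hcard, -, -, hinj⟩ :=
    Fermat.Agent.TW.B5.LDAll65.ramIdxEqCard p (cycloF ζ) D inferInstance (isNormalField_cycloF hζ)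
  -- the exponent of `σ` on `ζ`
  have hex : ∀ σ : Gp p, ∃ a : ZMod p, σ ζ = ζ ^ a.val := by
    intro σ
    have h : (σ ζ) ^ p = 1 := by rw [← map_pow, hζ.1, map_one]
    obtain ⟨i, hi⟩ := exists_pow_eq hζ h
    exact ⟨(i : ZMod p), by rw [pow_val_natCast hζ, hi]⟩
  choose g hg using hex
  have hg0 : ∀ σ : Gp p, g σ ≠ 0 := by
    intro σ h0
    have h1 := hg σ
    rw [h0, ZMod.val_zero, pow_zero] at h1
    have h2 : ζ = 1 := by
      have := congrArg σ.symm h1
      rwa [AlgEquiv.symm_apply_apply, map_one] at this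
    exact hζ.2 h2
  have hginj : Set.InjOn g (s : Set (Gp p)) := by
    intro σ hσ σ' hσ' hgg
    refine hinj σ hσ σ' hσ' ?_
    have h1 : σ ζ = σ' ζ := by rw [hg σ, hg σ', hgg]
    have h2 : (σ'⁻¹ * σ) ζ = ζ := by
      rw [AlgEquiv.mul_apply, h1]
      exact σ'.symm_apply_apply ζ
    have h3 := mem_fixingSubgroup_cycloF h2
    intro x hx
    have h4 := fixes_of_mem hx h3
    rw [AlgEquiv.mul_apply] at h4
    have h5 := congrArg σ' h4
    rwa [show σ' (σ'⁻¹ (σ x)) = σ x from σ'.apply_symm_apply _] at h5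
  haveI : NeZero p := ⟨hp.out.ne_zero⟩
  have hle : s.card ≤ (Finset.univ.erase (0 : ZMod p)).card := by
    refine Finset.card_le_card_of_injOn g ?_ hginj
    intro σ _
    exact Finset.mem_coe.2 (Finset.mem_erase.2 ⟨hg0 σ, Finset.mem_univ _⟩)
  rw [Finset.card_erase_of_mem (Finset.mem_univ _), Finset.card_univ, ZMod.card] at hle
  have he0 : D.e ≠ 0 := by
    intro h0
    have h1 := D.he
    rw [h0, pow_zero, Fermat.Agent.TW.B5.LG83U.norm_p p] at h1
    have h2 : (p : ℝ)⁻¹ < 1 := inv_lt_one_of_one_lt₀ (by exact_mod_cast hp.out.one_lt)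
    rw [h1] at h2
    exact lt_irrefl _ h2
  intro hdvd
  have h1 : p ≤ D.e := Nat.le_of_dvd (Nat.pos_of_ne_zero he0) hdvd
  have h2 : 0 < p := hp.out.pos
  omega

end Cyclo

/-- **(F4), local form.**  `a ∈ ℚ_pˣ`; if the kernel of a finite flat local module killed by `p` (`p` odd)
fixes `ζ_p` and a `p`-th root `α` of `a`, then `p ∣ v_p(a)`. -/
theorem padic_val_of_flat_kummer (hp2 : p ≠ 2) {X : Type} [AddCommGroup X] [Finite X]
    {act : Gp p → X → X} (hflat : IsFlatLocalModule p X act) (hpX : ∀ x : X, p • x = 0)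
    {ζ : Kbar p} (hζ : IsPrimRoot ζ) {a : ℚ_[p]} (ha : a ≠ 0) {α : Kbar p}
    (hα : α ^ p = algebraMap ℚ_[p] (Kbar p) a)
    (hcut : ∀ τ : Gp p, (∀ x : X, act τ x = x) → τ ζ = ζ ∧ τ α = α) :
    (p : ℤ) ∣ a.valuation := by
  obtain ⟨D, -, -⟩ := Fermat.Agent.TW.B5.LDAll65.hasLevelData p (cycloF ζ) ζ inferInstance hζ
    (mem_cycloF ζ)
  obtain ⟨K₀, hK₀F, hK₀fin, hK₀ur, hres⟩ :=
    Fermat.Agent.TW.B5.LDAll65.existsUnramSub p (cycloF ζ) inferInstance
  have hpe := not_dvd_e_cyclo hζ D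
  have ha' : algebraMap ℚ_[p] (Kbar p) a ≠ 0 := by
    rw [Ne, map_eq_zero]
    exact ha
  obtain ⟨b, hbF, hb0, hab⟩ := kummer_unit_of_flat hp2 D (isNormalField_cycloF hζ) hK₀F hK₀fin
    hK₀ur hres hpe hζ (mem_cycloF ζ) hflat hpX ((cycloF ζ).algebraMap_mem a) ha' hα
    (fun τ hτ => ⟨mem_fixingSubgroup_cycloF (hcut τ hτ).1, (hcut τ hτ).2⟩)
  -- norms
  have he1 : 1 ≤ D.e := by
    rcases Nat.eq_zero_or_pos D.e with h0 | h0
    · exact absurd (h0 ▸ dvd_zero p) hpe
    · exact h0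
  have hnorm := D.norm_eq_one_of_mem_U he1 hab
  obtain ⟨m, hm⟩ := D.val b hbF hb0
  have hpi : (p : ℝ)⁻¹ = ‖D.π‖ ^ D.e := by
    rw [← D.he, Fermat.Agent.TW.B5.LG83U.norm_p p]
  have hna : ‖algebraMap ℚ_[p] (Kbar p) a‖ = ‖D.π‖ ^ ((D.e : ℤ) * a.valuation) := by
    have h1 : ‖algebraMap ℚ_[p] (Kbar p) a‖ = ‖a‖ := PadicAlgCl.norm_extends p a
    rw [h1, Padic.norm_eq_zpow_neg_valuation ha, zpow_neg, ← inv_zpow, hpi, zpow_mul, zpow_natCast]
  rw [norm_mul, norm_pow, hna, hm, ← zpow_natCast (‖D.π‖ ^ m) p, ← zpow_mul,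
    ← zpow_add₀ D.hπpos.ne'] at hnorm
  have hexp : (D.e : ℤ) * a.valuation + m * (p : ℤ) = 0 := by
    by_contra hne
    have h1 := (zpow_eq_one_iff_right₀ D.hπpos.le D.hπlt.ne).1 hnorm
    exact hne h1
  have hdvd : (p : ℤ) ∣ (D.e : ℤ) * a.valuation := by
    refine ⟨-m, ?_⟩
    linarith
  rcases (Nat.prime_iff_prime_int.1 hp.out).dvd_or_dvd hdvd with h | h
  · exact absurd (Int.natCast_dvd_natCast.1 h) hpe
  · exact h

end Local

section Global

variable {r : ℕ} [hr : Fact r.Prime]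

/-- An element of order `r` : `n • v = m • v ↔ n ≡ m [MOD r]`. -/
theorem nsmul_eq_nsmul_iff_of_prime {V : Type} [AddCommGroup V] {v : V} (hv : v ≠ 0)
    (hrv : r • v = 0) (n m : ℕ) : n • v = m • v ↔ n ≡ m [MOD r] := by
  have hord : addOrderOf v = r := addOrderOf_eq_prime hrv hv
  rw [← hord]
  exact nsmul_eq_nsmul_iff_modEq

/-- **(F4), global form.**  `V = ⟨v₀⟩` of order `r` (`r` odd) on which `G_ℚ` acts through the cyclotomic
character (`σ ζ = ζ ^ n → σ v₀ = n v₀`), `c` the Kummer cocycle of `x ∈ ℚˣ` with respect to an `r`-th root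
`α` (`σ α = ζ ^ n α → c σ = n v₀`).  If the extension module `V × ℤ/N` (`r ∣ N`) of `c` has a finite flat
model over `ℤ_(r)`, then `r ∣ v_r(x)`. -/
theorem flat_kummer_cochain_val (hr2 : r ≠ 2) {N : ℕ} [NeZero N] (hrN : r ∣ N) {V : Type}
    [AddCommGroup V] [DistribMulAction GQ V] [Finite V] (hVr : ∀ v : V, r • v = 0)
    {ζ : Qb} (hζ1 : ζ ^ r = 1) (hζ : ζ ≠ 1) {v₀ : V} (hv₀ : v₀ ≠ 0)
    (hact : ∀ (σ : GQ) (n : ℕ), σ ζ = ζ ^ n → σ • v₀ = n • v₀)
    {x : ℚ} (hx : x ≠ 0) {α : Qb} (hα : α ^ r = algebraMap ℚ Qb x)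
    {c : GQ → V} (hcα : ∀ (σ : GQ) (n : ℕ), σ α = ζ ^ n * α → c σ = n • v₀)
    (hc : IsFlatCochain r N c) : (r : ℤ) ∣ padicValRat r x := by
  haveI : NeZero r := ⟨hr.out.ne_zero⟩
  have hX : IsFlatCochain r r c := hasFlatModel_extAct_of_dvd hrN hVr hc
  have hloc := isFlatLocalModule_of_isFlatCochain r hX
  have hkill : ∀ y : V × ZMod r, r • y = 0 := by
    intro y
    apply Prod.ext
    · exact hVr y.1
    · show r • y.2 = 0
      rw [nsmul_eq_mul, ZMod.natCast_self, zero_mul]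
  have hone : (1 : ZMod r).val = 1 := by
    rw [ZMod.val_one_eq_one_mod, Nat.mod_eq_of_lt hr.out.one_lt]
  have hprim : IsPrimitiveRoot ζ r := IsPrimitiveRoot.iff_orderOf.2 (orderOf_eq_prime hζ1 hζ)
  have hα0 : α ≠ 0 := by
    intro h0
    rw [h0, zero_pow hr.out.ne_zero] at hα
    exact hx ((map_eq_zero (algebraMap ℚ Qb)).1 hα.symm)
  -- the local data
  have hζ' : IsPrimRoot (padicEmbedding r ζ) := by
    refine ⟨by rw [← map_pow, hζ1, map_one], fun h => hζ ?_⟩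
    exact (padicEmbedding r).injective (h.trans (map_one (padicEmbedding r)).symm)
  have hxp : ((x : ℚ) : ℚ_[r]) ≠ 0 := by exact_mod_cast hx
  have hα' : (padicEmbedding r α) ^ r = algebraMap ℚ_[r] (Kbar r) ((x : ℚ) : ℚ_[r]) := by
    rw [← map_pow, hα, AlgHom.commutes, map_ratCast]
    exact (eq_ratCast (algebraMap ℚ (Kbar r)) x)
  have key := padic_val_of_flat_kummer hr2 hloc hkill hζ' hxp hα' ?_
  · rwa [Padic.valuation_ratCast] at key
  · intro τ hτ
    set σ := localGaloisToGlobal r τ with hσ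
    have h1 := hτ (v₀, 0)
    have h1' : σ • v₀ + (0 : ZMod r).val • c σ = v₀ := congrArg Prod.fst h1
    rw [ZMod.val_zero, zero_nsmul, add_zero] at h1'
    have h2 := hτ ((0 : V), (1 : ZMod r))
    have h2' : σ • (0 : V) + (1 : ZMod r).val • c σ = 0 := congrArg Prod.fst h2
    rw [smul_zero, zero_add, hone, one_nsmul] at h2'
    -- `σ ζ = ζ`
    have hσζ : σ ζ = ζ := by
      have h : (σ ζ) ^ r = 1 := by rw [← map_pow, hζ1, map_one]
      obtain ⟨n, -, hn⟩ := hprim.eq_pow_of_pow_eq_one h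
      have h3 := hact σ n hn.symm
      rw [h1'] at h3
      have h4 : 1 • v₀ = n • v₀ := by rw [one_nsmul]; exact h3
      have h5 := (nsmul_eq_nsmul_iff_of_prime hv₀ (hVr v₀) 1 n).1 h4
      rw [← hn, ← pow_eq_pow_of_modEq h5 hζ1, pow_one]
    -- `σ α = α`
    have hσα : σ α = α := by
      have h : (σ α / α) ^ r = 1 := by
        rw [div_pow, ← map_pow, hα, AlgEquiv.commutes, div_self]
        rw [← hα]
        exact pow_ne_zero _ hα0
      obtain ⟨n, -, hn⟩ := hprim.eq_pow_of_pow_eq_one h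
      have h3 : σ α = ζ ^ n * α := by rw [hn, div_mul_cancel₀ _ hα0]
      have h4 := hcα σ n h3
      rw [h2'] at h4
      have h5 : n • v₀ = 0 • v₀ := by rw [zero_nsmul]; exact h4.symm
      have h6 := (nsmul_eq_nsmul_iff_of_prime hv₀ (hVr v₀) n 0).1 h5
      rw [h3, pow_eq_pow_of_modEq h6 hζ1, pow_zero, one_mul]
    refine ⟨?_, ?_⟩
    · rw [← padicEmbedding_localGaloisToGlobal, ← hσ, hσζ]
    · rw [← padicEmbedding_localGaloisToGlobal, ← hσ, hσα]

end Global

end Fermat.Agent.MAZ.LocalR58
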