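/-
Programme MAZ (S15), local package at `r` odd (helper58): (F4) in the exact shape requested by the consumer
`MAZ/BaseChi97` (helper97, brick L-r-CHI): `V ↪ μ_r` equivariantly through `φ`, `c` the Kummer cocycle of
`a = α ^ r ∈ ℚˣ`, extension module `V × ℤ/r` flat at `r`  ⇒  `r ∣ v_r(a)`.

* `V ≠ 0` : `flat_kummer_cochain_val` (file `F4.lean`) with `ζ := φ v₀`;
* `V = 0` : `α` is fixed by `G_ℚ`, hence rational, and `a = α ^ r`.
-/
import Fermat.Agent.MAZ.LocalR58.F4
import Fermat.Agent.MAZ.FlatCond42.System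

set_option autoImplicit false

namespace Fermat.Agent.MAZ.LocalR58

open Fermat.Agent.Flat44 Fermat.Agent.MAZ.FlatCond42 Fermat.Agent.MAZ.SelCoh42

variable {r : ℕ} [hr : Fact r.Prime]

/-- **(F4), consumer shape** (`BaseChi97.LocalF4 r`, verbatim). -/
theorem localF4 (hr2 : r ≠ 2) :
    ∀ (V : Type) [AddCommGroup V] [DistribMulAction GQ V], (∀ x : V, r • x = 0) →
    ∀ (φ : V → Qbˣ), Function.Injective φ → (∀ x y, φ (x + y) = φ x * φ y) →
      (∀ (σ : GQ) (x : V), ((φ (σ • x) : Qbˣ) : Qb) = σ (φ x : Qb)) →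
    ∀ (c : Z1 galLevel V) (a : ℚ) (α : Qbˣ), a ≠ 0 → (α : Qb) ^ r = (a : Qb) →
      (∀ σ : GQ, ((φ (c.1 σ) : Qbˣ) : Qb) * α = σ (α : Qb)) →
      IsFlatCochain r r c.1 → (r : ℤ) ∣ padicValRat r a := by
  intro V _ _ hVr φ hφ hmul hequiv c a α ha hα hc hflat
  haveI : NeZero r := ⟨hr.out.ne_zero⟩
  have hφ0 : φ 0 = 1 := by
    have h := hmul 0 0
    rw [add_zero] at h
    exact left_eq_mul.mp h
  have hφn : ∀ (n : ℕ) (x : V), φ (n • x) = φ x ^ n := by
    intro n x
    induction n with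
    | zero => rw [zero_nsmul, pow_zero, hφ0]
    | succ n ih => rw [succ_nsmul, hmul, ih, pow_succ]
  have hφr : ∀ x : V, (φ x) ^ r = 1 := by
    intro x
    rw [← hφn, hVr, hφ0]
  by_cases hV : ∃ v₀ : V, v₀ ≠ 0
  · obtain ⟨v₀, hv₀⟩ := hV
    -- `V` is finite: it embeds in the `r`-th roots of unity
    haveI : Finite V := by
      let ψ : V → rootsOfUnity r Qb := fun x => ⟨φ x, (mem_rootsOfUnity r (φ x)).2 (hφr x)⟩
      have hψ : Function.Injective ψ := fun x y h => hφ (congrArg Subtype.val h)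
      exact Finite.of_injective ψ hψ
    have hζ1 : ((φ v₀ : Qbˣ) : Qb) ^ r = 1 := by
      rw [← Units.val_pow_eq_pow_val, hφr, Units.val_one]
    have hζ : ((φ v₀ : Qbˣ) : Qb) ≠ 1 := by
      intro h
      apply hv₀
      apply hφ
      rw [hφ0]
      exact Units.ext h
    have hαr : (α : Qb) ^ r = algebraMap ℚ Qb a := by
      rw [hα]
      exact (eq_ratCast (algebraMap ℚ Qb) a).symm
    refine flat_kummer_cochain_val hr2 (dvd_refl r) hVr hζ1 hζ hv₀ ?_ ha hαr ?_ hflat
    · intro σ n hn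
      apply hφ
      apply Units.ext
      rw [hequiv, hn, hφn, Units.val_pow_eq_pow_val]
    · intro σ n hn
      apply hφ
      apply Units.ext
      have h1 := hc σ
      rw [hn] at h1
      have h2 : ((φ (c.1 σ) : Qbˣ) : Qb) = (φ v₀ : Qb) ^ n :=
        mul_right_cancel₀ α.ne_zero h1
      rw [h2, hφn, Units.val_pow_eq_pow_val]
  · -- `V = 0`: `α` is rational
    push Not at hV
    have hc0 : ∀ σ : GQ, c.1 σ = 0 := fun σ => hV _
    have hfix : ∀ σ : GQ, σ (α : Qb) = α := by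
      intro σ
      rw [← hc σ, hc0, hφ0, Units.val_one, one_mul]
    have hgal : IsGalois ℚ Qb := Fermat.Agent.Flat44.isGalois_Qb
    obtain ⟨q, hq⟩ := (InfiniteGalois.mem_range_algebraMap_iff_fixed (k := ℚ) (K := Qb) (α : Qb)).2 hfix
    have hq' : (q : Qb) = α := by rw [← hq]; exact (eq_ratCast (algebraMap ℚ Qb) q).symm
    have haq : a = q ^ r := by
      have h1 : ((q ^ r : ℚ) : Qb) = (a : Qb) := by
        rw [Rat.cast_pow, hq', hα]
      exact_mod_cast h1.symm
    rw [haq, padicValRat.pow q]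
    exact dvd_mul_right _ _

end Fermat.Agent.MAZ.LocalR58
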