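/-
Programme MAZ (S15), local package at `r` odd (helper58): (F3) in terms of the GLOBAL inertia group
`I_A = (padicPlace r).inertiaSubgroupIn ℚ ⊂ G_ℚ` (Prelude vocabulary), through helper66's dictionary
`T1B/Plumb66/Inertia.forall_IA_iff`.  This is the shape consumed by `S13/UnramBridge`
(`eq_top_of_forall_exists_inertia_le`: "for every prime `q` the inertia group of SOME place over `q`").
-/
import Fermat.Agent.MAZ.LocalR58.F3
import Fermat.Agent.T1B.Plumb66.Inertia

set_option autoImplicit false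

namespace Fermat.Agent.MAZ.LocalR58

open Fermat.Agent.Flat44 Fermat.Agent.TW.B5.Iface Fermat.Agent.MAZ.FlatCond42
open Fermat.Agent.T1B.Plumb66.Inertia

variable {r : ℕ} [Fact r.Prime]

/-- **(F3), global inertia form.**  `V` killed by `r` (`r` odd) with trivial action of the inertia group
`I_A` of the canonical place over `r`; a cochain `c` whose extension module `V × ℤ/N` (`r ∣ N`) has a finite
flat model over `ℤ_(r)` vanishes on `I_A`. -/
theorem flat_cochain_unramified_IA (hr2 : r ≠ 2) {N : ℕ} [NeZero N] (hrN : r ∣ N) {V : Type}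
    [AddCommGroup V] [DistribMulAction GQ V] (hVr : ∀ v : V, r • v = 0)
    (htriv : ∀ σ ∈ IA r, ∀ v : V, σ • v = v)
    {c : GQ → V} (hc : IsFlatCochain r N c) : ∀ σ ∈ IA r, c σ = 0 := by
  rw [forall_IA_iff]
  intro τ hτ
  exact flat_cochain_unramified hr2 hrN hVr
    (fun τ' hτ' v => htriv _ ((isInertial_iff r τ').1 hτ') v) hc hτ

/-- The same, in the existential shape of `S13/UnramBridge.eq_top_of_forall_exists_inertia_le`. -/
theorem exists_place_flat_cochain_unramified (hr2 : r ≠ 2) {N : ℕ} [NeZero N] (hrN : r ∣ N)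
    {V : Type} [AddCommGroup V] [DistribMulAction GQ V] (hVr : ∀ v : V, r • v = 0)
    (htriv : ∀ (σ : GQ) (v : V), σ • v = v)
    {c : GQ → V} (hc : IsFlatCochain r N c) :
    ∃ A : ValuationSubring (AlgebraicClosure ℚ), A.LiesOverPrime r ∧
      ∀ σ ∈ A.inertiaSubgroupIn ℚ, c σ = 0 :=
  ⟨padicPlace r, Fermat.Agent.T1.LocModel46.liesOverPrime r,
    flat_cochain_unramified_IA hr2 hrN hVr (fun σ _ v => htriv σ v) hc⟩

end Fermat.Agent.MAZ.LocalR58
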