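/-
Programme MAZ (S15), local package at `r` (helper58), brick FLAT-TRANSFER.

`Flat44.HasFlatModel p M act` (the Prelude's notion of "finite flat at `p`" for a bare additive group
`M` with operators `act : G_ℚ → M → M`) is SYNTACTICALLY the predicate `TW.Interface.IsFlatGaloisModule`
of programme TW, and helper57's `TW/B5/Adapt57/FlatTransport` already transports the latter to the local
model of `TW/B5/Iface` (`K̄ = PadicAlgCl p`, `G_p = Gal(K̄/ℚ_p)`) along `localGaloisToGlobal p`.
This file only records the wrapper in the MAZ vocabulary (`Flat44`, `FlatCond42`).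
-/
import Fermat.Agent.TW.B5.Adapt57.FlatTransport
import Fermat.Agent.MAZ.FlatCond42.ExtMod

set_option autoImplicit false
set_option linter.unusedSectionVars false

namespace Fermat.Agent.MAZ.LocalR58

open Fermat.Agent.Flat44 Fermat.Agent.TW.B5.Iface Fermat.Agent.MAZ.FlatCond42

variable (p : ℕ) [Fact p.Prime]

/-- Restriction of a family of operators along `res : G_p → G_ℚ`. -/
noncomputable def locAct {M : Type} (act : GQ → M → M) : Gp p → M → M :=
  fun τ => act (localGaloisToGlobal p τ)

theorem locAct_apply {M : Type} (act : GQ → M → M) (τ : Gp p) (x : M) :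
    locAct p act τ x = act (localGaloisToGlobal p τ) x := rfl

/-- The two "flat at `p`" predicates on bare modules coincide (by definition). -/
theorem hasFlatModel_iff_isFlatGaloisModule {M : Type} [AddCommGroup M] (act : GQ → M → M) :
    HasFlatModel p M act ↔ Fermat.Agent.TW.Interface.IsFlatGaloisModule p M act :=
  Iff.rfl

/-- **FLAT-TRANSFER.**  A `G_ℚ`-module with a finite flat model over `ℤ_(p)` is, restricted to `G_p`, a flat
local module in the sense of `TW/B5/Iface`. -/
theorem isFlatLocalModule_of_hasFlatModel {M : Type} [AddCommGroup M] {act : GQ → M → M}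
    (h : HasFlatModel p M act) : IsFlatLocalModule p M (locAct p act) :=
  Fermat.Agent.TW.B5.Adapt57.FlatTransport.isFlatLocalModule_of_isFlatGaloisModule act h

/-- The same for the extension module of a flat cochain. -/
theorem isFlatLocalModule_of_isFlatCochain {N : ℕ} {V : Type} [AddCommGroup V] [DistribMulAction GQ V]
    {c : GQ → V} (h : IsFlatCochain p N c) :
    IsFlatLocalModule p (V × ZMod N) (locAct p (extAct N c)) :=
  isFlatLocalModule_of_hasFlatModel p h

end Fermat.Agent.MAZ.LocalR58
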